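import Fermat.Agent.Stabilisation.Genus
import Fermat.Agent.IwasawaGrowth.Exists
import Mathlib.FieldTheory.KummerExtension

/-!
# An example with two ramified primes and unit rank zero

A Galois field `K/ℚ` of degree prime to `p` has a `ℤ_p`-extension, the translate of that of `ℚ`, in
which every prime over `p` ramifies (`exists_translate`). For odd `p` the field `ℚ(√(1 - p))` has
unit rank zero and two primes over `p` (`exists_split_imaginary`).
-/

set_option autoImplicit false
set_option linter.unusedSectionVars false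
set_option linter.style.haveILetI false

noncomputable section

open NumberField IsDedekindDomain Polynomial
open FA.ArtinRec (belowP belowP_belowP)
open scoped Classical

namespace FA.IwasawaGrowth

variable {p : ℕ} [hp : Fact p.Prime]

attribute [local instance] numberField_sub ZpTower.finite_level ZpTower.isGalois ZpTower.isCyclic

/-- The prime of `ℚ` below a prime containing `p` does not depend on it. -/
theorem belowP_rat_congr {A B : Type} [Field A] [NumberField A] [Field B] [NumberField B]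
    {Q : HeightOneSpectrum (𝓞 A)} {Q' : HeightOneSpectrum (𝓞 B)}
    (h : (p : 𝓞 A) ∈ Q.asIdeal) (h' : (p : 𝓞 B) ∈ Q'.asIdeal) : belowP ℚ Q = belowP ℚ Q' := by
  have hspan : (Ideal.span {(p : 𝓞 ℚ)}).IsMaximal := by
    have h1 : (Ideal.span {(p : ℤ)}).IsMaximal :=
      (Ideal.span_singleton_prime (by exact_mod_cast hp.out.ne_zero)).2
        (Nat.prime_iff_prime_int.1 hp.out) |>.isMaximal (by simpa using hp.out.ne_zero)
    have h2 := Ideal.map_isMaximal_of_equiv Rat.ringOfIntegersEquiv.symm (p := Ideal.span {(p : ℤ)})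
    rwa [Ideal.map_span, Set.image_singleton, map_natCast] at h2
  have key : ∀ {M : Type} [Field M] [NumberField M] (P : HeightOneSpectrum (𝓞 M)),
      (p : 𝓞 M) ∈ P.asIdeal →
        Ideal.span {(p : 𝓞 ℚ)} = (belowP ℚ P).asIdeal := fun {M} _ _ P hP => by
    refine hspan.eq_of_le (belowP ℚ P).isPrime.ne_top ((Ideal.span_singleton_le_iff_mem _).2 ?_)
    show (p : 𝓞 ℚ) ∈ P.asIdeal.under (𝓞 ℚ)
    rw [Ideal.mem_comap, map_natCast]
    exact hP
  exact HeightOneSpectrum.ext ((key Q h).symm.trans (key Q' h'))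

/-- **Translating a `ℤ_p`-extension.** -/
theorem exists_translate {k : Type} [Field k] [NumberField k] (T₀ : ZpTower p k) (K : Type)
    [Field K] [NumberField K] [Algebra k K] [IsGalois k K]
    (hK : (Module.finrank k K).Coprime p) :
    ∃ T : ZpTower p K, ∀ v : HeightOneSpectrum (𝓞 K),
      T₀.IsRamified (belowP k v) → T.IsRamified v := by
  let ι : AlgebraicClosure k →ₐ[k] AlgebraicClosure K := IsAlgClosed.lift
  let B : IntermediateField k (AlgebraicClosure K) :=
    (IsScalarTower.toAlgHom k K (AlgebraicClosure K)).fieldRange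
  let N₀ : ℕ → IntermediateField k (AlgebraicClosure K) := fun n => B ⊔ (T₀.field n).map ι
  let N : ℕ → IntermediateField K (AlgebraicClosure K) := fun n =>
    (N₀ n).toSubfield.toIntermediateField fun x => (le_sup_left : B ≤ N₀ n) ⟨x, rfl⟩
  haveI : Normal k B :=
    Normal.of_algEquiv (AlgEquiv.ofInjectiveField (IsScalarTower.toAlgHom k K (AlgebraicClosure K)))
  haveI : FiniteDimensional k B := (AlgEquiv.ofInjectiveField
    (IsScalarTower.toAlgHom k K (AlgebraicClosure K))).toLinearEquiv.finiteDimensional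
  haveI : ∀ n, Normal k ((T₀.field n).map ι) := fun n =>
    Normal.of_algEquiv (IntermediateField.equivMap (T₀.field n) ι)
  haveI : ∀ n, FiniteDimensional k ((T₀.field n).map ι) := fun n =>
    (IntermediateField.equivMap (T₀.field n) ι).toLinearEquiv.finiteDimensional
  let e : ∀ n, N₀ n ≃ₐ[k] N n := fun n =>
    { toFun := fun x => ⟨x.1, x.2⟩
      invFun := fun x => ⟨x.1, x.2⟩
      left_inv := fun _ => rfl
      right_inv := fun _ => rfl
      map_mul' := fun _ _ => rfl
      map_add' := fun _ _ => rfl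
      commutes' := fun _ => rfl }
  haveI hnorm : ∀ n, Normal k (N n) := fun n =>
    haveI : Normal k (N₀ n) := IntermediateField.normal_sup k (AlgebraicClosure K) B _
    Normal.of_algEquiv (e n)
  haveI hfinQ : ∀ n, FiniteDimensional k (N n) := fun n =>
    haveI : FiniteDimensional k (N₀ n) := IntermediateField.finiteDimensional_sup _ _
    (e n).toLinearEquiv.finiteDimensional
  haveI hgalQ : ∀ n, IsGalois k (N n) := fun n => ⟨⟩
  haveI hfinK : ∀ n, FiniteDimensional K (N n) := fun n => Module.Finite.right k K _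
  haveI hgal : ∀ n, IsGalois K (N n) := fun n => IsGalois.tower_top_of_isGalois k K _
  letI alg : ∀ n, Algebra (T₀.field n) (N n) := fun n =>
    RingHom.toAlgebra
      { toFun := fun x => ⟨ι x, (le_sup_right : _ ≤ N₀ n) ⟨x, x.2, rfl⟩⟩
        map_one' := Subtype.ext (map_one ι)
        map_mul' := fun _ _ => Subtype.ext (map_mul ι _ _)
        map_zero' := Subtype.ext (map_zero ι)
        map_add' := fun _ _ => Subtype.ext (map_add ι _ _) }
  haveI tow : ∀ n, IsScalarTower k (T₀.field n) (N n) := fun n =>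
    IsScalarTower.of_algebraMap_eq fun x => Subtype.ext (ι.commutes x).symm
  let rs : ∀ n, (N n ≃ₐ[K] N n) →* (N n ≃ₐ[k] N n) := fun n =>
    { toFun := fun g => g.restrictScalars k
      map_one' := rfl
      map_mul' := fun _ _ => rfl }
  let r : ∀ n, (N n ≃ₐ[K] N n) →* (T₀.field n ≃ₐ[k] T₀.field n) := fun n =>
    (AlgEquiv.restrictNormalHom (T₀.field n)).comp (rs n)
  have hinj : ∀ n, Function.Injective (r n) := fun n => (injective_iff_map_eq_one (r n)).2
    fun g hg => by
    have key : ∀ x, ∀ hx : x ∈ N₀ n, g (⟨x, hx⟩ : N n) = ⟨x, hx⟩ := by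
      let F : IntermediateField k (AlgebraicClosure K) :=
        (IntermediateField.fixedField (Subgroup.zpowers (rs n g))).map
          (AlgHom.restrictScalars k (N n).val)
      have hfix : ∀ y : N n, g y = y → y ∈ IntermediateField.fixedField
          (Subgroup.zpowers (rs n g)) := fun y hy => by
        rintro ⟨k, hk⟩
        obtain ⟨i, rfl⟩ := hk
        exact (Subgroup.zpowers_le.2 (show rs n g ∈ MulAction.stabilizer (N n ≃ₐ[k] N n) y from hy))
          ⟨i, rfl⟩
      have hle : N₀ n ≤ F := sup_le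
        (fun x hx => by
          obtain ⟨y, rfl⟩ := hx
          exact ⟨algebraMap K (N n) y, hfix _ (g.commutes y), rfl⟩)
        (fun x hx => by
          obtain ⟨y, hy, rfl⟩ := hx
          refine ⟨algebraMap (T₀.field n) (N n) ⟨y, hy⟩, hfix _ ?_, rfl⟩
          have h1 := (rs n g).restrictNormal_commutes (T₀.field n) ⟨y, hy⟩
          rw [show (rs n g).restrictNormal (T₀.field n) = 1 from hg] at h1
          exact h1.symm)
      intro x hx
      obtain ⟨y, hy, rfl⟩ := hle hx
      exact hy ⟨rs n g, Subgroup.mem_zpowers _⟩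
    exact AlgEquiv.ext fun x => key x.1 x.2
  have hdeg : ∀ n, Module.finrank K (N n) = p ^ n := fun n => by
    have h1 := Subgroup.card_dvd_of_injective (r n) (hinj n)
    rw [IsGalois.card_aut_eq_finrank, T₀.card_gal] at h1
    have h2 : p ^ n ∣ Module.finrank k K * Module.finrank K (N n) := by
      rw [Module.finrank_mul_finrank, ← T₀.finrank_eq n]
      haveI : FiniteDimensional (T₀.field n) (N n) := Module.Finite.right k (T₀.field n) _
      exact Dvd.intro _ (Module.finrank_mul_finrank k (T₀.field n) (N n))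
    exact Nat.dvd_antisymm h1 ((hK.pow_right n).symm.dvd_of_dvd_mul_left h2)
  let T : ZpTower p K :=
    { field := N
      isGalois := hgal
      isCyclic := fun n => isCyclic_of_injective (r n) (hinj n)
      finrank_eq := hdeg
      mono := fun i j h x hx =>
        (sup_le_sup_left (IntermediateField.map_mono ι (T₀.mono h)) B : N₀ i ≤ N₀ j) hx }
  refine ⟨T, fun v hv => ?_⟩
  obtain ⟨m, Q₀, hb₀, hQ₀⟩ := hv
  haveI : NumberField (N m) := NumberField.of_module_finite K _
  obtain ⟨Q, hQ⟩ := FA.ArtinRec.exists_belowP K (N m) v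
  have hbQ : belowP k (belowP (T₀.field m) Q) = belowP k Q₀ := by
    rw [belowP_belowP, hb₀, ← hQ, belowP_belowP]
  rw [T₀.inertia_congr hbQ.symm] at hQ₀
  obtain ⟨⟨s, hs⟩, hs1⟩ := Subgroup.ne_bot_iff_exists_ne_one.1 hQ₀
  haveI := Q.isMaximal
  obtain ⟨g, hg, hgs⟩ := FA.ArtinL.exists_inertia_lift (K := k) (M := T₀.field m) Q.asIdeal hs
  set d := Module.finrank k K with hd
  have hfixK : ∀ y : K, (g ^ d) (algebraMap K (N m) y) = algebraMap K (N m) y := fun y => by
    have h1 := (g ^ d).restrictNormal_commutes K y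
    rw [show (g ^ d).restrictNormal K = 1 from by
      show AlgEquiv.restrictNormalHom K (g ^ d) = 1
      rw [map_pow, hd, ← IsGalois.card_aut_eq_finrank, pow_card_eq_one']] at h1
    exact h1.symm
  let gK : N m ≃ₐ[K] N m := AlgEquiv.ofRingEquiv (f := (g ^ d).toRingEquiv) hfixK
  refine ⟨m, Q, hQ, Subgroup.ne_bot_iff_exists_ne_one.2 ⟨⟨gK, fun x => ?_⟩, fun h => hs1 ?_⟩⟩
  · exact (pow_mem hg d : g ^ d ∈ Q.asIdeal.inertia (N m ≃ₐ[k] N m)) x
  · have h1 : g ^ d = 1 := AlgEquiv.ext fun x =>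
      DFunLike.congr_fun (congrArg Subtype.val h) x
    have h2 : s ^ d = 1 := by rw [← hgs, ← map_pow, h1, map_one]
    have h3 : orderOf s ∣ p ^ m := T₀.card_gal m ▸ orderOf_dvd_natCard s
    refine Subtype.ext (orderOf_eq_one_iff.1 ?_)
    exact Nat.eq_one_of_dvd_coprimes (hK.pow_right m) (orderOf_dvd_of_pow_eq_one h2) h3

/-- **Translating the `ℤ_p`-extension of `ℚ`.** -/
theorem exists_translate_rat (K : Type) [Field K] [NumberField K] [IsGalois ℚ K]
    (hK : (Module.finrank ℚ K).Coprime p) :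
    ∃ T : ZpTower p K, ∀ v : HeightOneSpectrum (𝓞 K), (p : 𝓞 K) ∈ v.asIdeal → T.IsRamified v := by
  obtain ⟨T₀⟩ := exists_zpTower ℚ p
  obtain ⟨m, Q₀, hQ₀⟩ := T₀.exists_ramified
  have hpQ₀ : (p : 𝓞 (T₀.field m)) ∈ Q₀.asIdeal := by
    by_contra hnot
    exact hQ₀ (T₀.inertia_eq_bot_of_not_mem hnot)
  obtain ⟨T, hT⟩ := exists_translate T₀ K hK
  exact ⟨T, fun v hv => hT v ⟨m, Q₀, belowP_rat_congr (p := p) hpQ₀ hv, hQ₀⟩⟩

/-- `p` splits in an imaginary quadratic field with a square root of `1 - p`. -/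
theorem split_of_sqrt (hp2 : p ≠ 2) {K : Type} [Field K] [NumberField K] [IsGalois ℚ K]
    (hdeg : Module.finrank ℚ K = 2) {s : K} (hs : s ^ 2 = 1 - (p : K)) :
    Units.rank K = 0 ∧ ∃ v w : HeightOneSpectrum (𝓞 K),
      (p : 𝓞 K) ∈ v.asIdeal ∧ (p : 𝓞 K) ∈ w.asIdeal ∧ v ≠ w := by
  have hp3 : 3 ≤ p := by
    have := hp.out.two_le
    omega
  have hneg : ∀ x : ℝ, x ^ 2 ≠ 1 - (p : ℝ) := fun x hx => by
    have : (3 : ℝ) ≤ p := by exact_mod_cast hp3
    nlinarith [sq_nonneg x]
  haveI : IsTotallyComplex K := ⟨fun w => InfinitePlace.not_isReal_iff_isComplex.1 fun hw =>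
    hneg (InfinitePlace.embedding_of_isReal hw s) (by
      rw [← map_pow, hs, map_sub, map_one, map_natCast])⟩
  refine ⟨?_, ?_⟩
  · have h1 := IsTotallyComplex.finrank (K := K)
    rw [Units.rank, InfinitePlace.card_eq_nrRealPlaces_add_nrComplexPlaces,
      IsTotallyComplex.nrRealPlaces_eq_zero]
    omega
  obtain ⟨τ, hτ⟩ : ∃ τ : K ≃ₐ[ℚ] K, τ s = -s := by
    have hnot : s ∉ Set.range (algebraMap ℚ K) := by
      rintro ⟨q, rfl⟩
      rw [← map_pow, ← map_natCast (algebraMap ℚ K), ← map_one (algebraMap ℚ K), ← map_sub] at hs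
      have h1 : ((q : ℚ) : ℝ) ^ 2 = 1 - (p : ℝ) := by
        have := congrArg (Rat.cast : ℚ → ℝ) ((algebraMap ℚ K).injective hs)
        push_cast at this
        exact this
      exact hneg _ h1
    rw [IsGalois.mem_range_algebraMap_iff_fixed] at hnot
    push Not at hnot
    obtain ⟨τ, hτ⟩ := hnot
    refine ⟨τ, (eq_or_eq_neg_of_sq_eq_sq _ _ ?_).resolve_left hτ⟩
    rw [← map_pow, hs, map_sub, map_one, map_natCast]
  have hsint : IsIntegral ℤ s := IsIntegral.of_pow two_pos (by
    rw [hs, ← map_natCast (algebraMap ℤ K)]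
    exact isIntegral_one.sub isIntegral_algebraMap)
  set σ : 𝓞 K := ⟨s, hsint⟩
  have hσ : (σ - 1) * (σ + 1) = -(p : 𝓞 K) := RingOfIntegers.coe_injective (by
    rw [map_mul, map_sub, map_add, map_neg, map_one, map_natCast]
    show (s - 1) * (s + 1) = -(p : K)
    linear_combination hs)
  have hτσ : RingOfIntegers.mapRingEquiv τ.toRingEquiv σ = -σ := RingOfIntegers.coe_injective (by
    rw [map_neg]
    exact hτ)
  have hpu : ¬ IsUnit (p : 𝓞 K) := fun h => by
    have h1 := h.map (Algebra.norm ℤ)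
    rw [show (p : 𝓞 K) = algebraMap ℤ (𝓞 K) p by simp, Algebra.norm_algebraMap,
      isUnit_pow_iff Module.finrank_pos.ne', Int.isUnit_iff] at h1
    rcases h1 with h1 | h1
    · exact hp.out.ne_one (by exact_mod_cast h1)
    · omega
  have hunit : ∀ c : 𝓞 K, c * c = 1 → ¬ IsUnit (σ + c) := fun c hc hu => by
    have h1 : IsUnit (-σ + c) := by
      rcases mul_self_eq_one_iff.1 hc with rfl | rfl <;>
        simpa [hτσ] using hu.map (RingOfIntegers.mapRingEquiv τ.toRingEquiv)
    have h2 : IsUnit (-((σ + c) * (-σ + c))) := (hu.mul h1).neg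
    rw [show -((σ + c) * (-σ + c)) = (σ - 1) * (σ + 1) by linear_combination -hc, hσ,
      IsUnit.neg_iff] at h2
    exact hpu h2
  have hex : ∀ x : 𝓞 K, x ∣ (p : 𝓞 K) → ¬ IsUnit x →
      ∃ v : HeightOneSpectrum (𝓞 K), x ∈ v.asIdeal ∧ (p : 𝓞 K) ∈ v.asIdeal := fun x hx hu => by
    obtain ⟨P, hP, hle⟩ := Ideal.exists_le_maximal (Ideal.span {x})
      (fun h => hu (Ideal.span_singleton_eq_top.1 h))
    have hxP : x ∈ P := hle (Ideal.mem_span_singleton_self x)
    refine ⟨⟨P, hP.isPrime, fun h0 => ?_⟩, hxP, Ideal.mem_of_dvd _ hx hxP⟩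
    rw [h0, Ideal.mem_bot] at hxP
    rw [hxP, zero_dvd_iff] at hx
    exact hp.out.ne_zero (Nat.cast_eq_zero.1 hx)
  obtain ⟨v, hv, hv'⟩ := hex (σ + -1) ⟨-(σ + 1), by linear_combination hσ⟩
    (hunit (-1) (by ring))
  obtain ⟨w, hw, hw'⟩ := hex (σ + 1) ⟨-(σ - 1), by linear_combination hσ⟩
    (hunit 1 (by ring))
  refine ⟨v, w, hv', hw', ?_⟩
  rintro rfl
  have h2 : ((2 : ℕ) : 𝓞 K) ∈ v.asIdeal := by
    have := v.asIdeal.sub_mem hw hv
    rw [show σ + 1 - (σ + -1) = ((2 : ℕ) : 𝓞 K) by push_cast; ring] at this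
    exact this
  obtain ⟨a, b, hab⟩ := Int.isCoprime_iff_nat_coprime.2
    (show Nat.Coprime (2 : ℤ).natAbs (p : ℤ).natAbs by
      simpa using (Nat.coprime_primes Nat.prime_two hp.out).2 (Ne.symm hp2))
  refine v.isPrime.ne_top ((Ideal.eq_top_iff_one _).2 ?_)
  have h1 := congrArg (Int.cast : ℤ → 𝓞 K) hab
  push_cast at h1
  rw [← h1]
  exact add_mem (v.asIdeal.mul_mem_left _ (by exact_mod_cast h2)) (v.asIdeal.mul_mem_left _ hv')

/-- **An imaginary quadratic field in which `p` splits.** -/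
theorem exists_split_imaginary (hp2 : p ≠ 2) :
    ∃ (K : Type) (_ : Field K) (_ : NumberField K) (_ : IsGalois ℚ K) (s : K),
      s ^ 2 = 1 - (p : K) ∧ Module.finrank ℚ K = 2 ∧ Units.rank K = 0 ∧
        ∃ v w : HeightOneSpectrum (𝓞 K),
          (p : 𝓞 K) ∈ v.asIdeal ∧ (p : 𝓞 K) ∈ w.asIdeal ∧ v ≠ w := by
  have hp3 : (3 : ℚ) ≤ p := by
    have := hp.out.two_le
    exact_mod_cast (show 3 ≤ p by omega)
  set D : ℚ := 1 - (p : ℚ) with hD
  have hirr : Irreducible (X ^ 2 - C D) :=
    X_pow_sub_C_irreducible_of_prime Nat.prime_two fun b hb => by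
      have := sq_nonneg b
      linarith
  have hζ : IsPrimitiveRoot (-1 : ℚ) 2 := IsPrimitiveRoot.neg_one 0 (by norm_num)
  have hprim : (primitiveRoots 2 ℚ).Nonempty := ⟨-1, (mem_primitiveRoots two_pos).2 hζ⟩
  let K := (X ^ 2 - C D).SplittingField
  haveI : IsSplittingField ℚ K (X ^ 2 - C D) := by
    convert IsSplittingField.splittingField (X ^ 2 - C D)
    exact Subsingleton.elim _ _
  haveI : NumberField K := NumberField.of_module_finite ℚ K
  haveI hgal : IsGalois ℚ K := isGalois_of_isSplittingField_X_pow_sub_C hprim hirr K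
  have hdeg : Module.finrank ℚ K = 2 := finrank_of_isSplittingField_X_pow_sub_C hprim hirr K
  have hs : rootOfSplitsXPowSubC two_pos D K ^ 2 = 1 - (p : K) :=
    (rootOfSplitsXPowSubC_pow D K).trans (by simp [hD])
  exact ⟨K, inferInstance, inferInstance, hgal, _, hs, hdeg, split_of_sqrt hp2 hdeg hs⟩

end FA.IwasawaGrowth
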