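import Fermat.Agent.IwasawaGrowth.MuCriterion

/-!
# Fukuda's stabilisation theorem

In a `ℤ_p`-extension let `e` be a level above which the ramified primes are totally ramified. For
`n ≥ e` equal `p`-parts of the class numbers at `n` and `n + 1` stay equal above
(`ZpTower.stable_of_succ_eq`), and so do equal `p`-ranks (`ZpTower.rank_stable_of_succ_eq`):
the kernel `Y` of `X_m → X_n` has image `ν Y` at the level `n + 1`, and `ν` is nilpotent.
-/

set_option autoImplicit false
set_option linter.unusedSectionVars false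
set_option linter.style.haveILetI false

noncomputable section

open NumberField IsDedekindDomain
open FA.ArtinRec (belowP)
open scoped Classical

namespace FA.IwasawaGrowth

variable {K : Type} [Field K] [NumberField K] {p : ℕ} [hp : Fact p.Prime]

attribute [local instance] numberField_sub ZpTower.finite_level ZpTower.isGalois ZpTower.isCyclic

namespace ZpTower

variable (T : ZpTower p K)

/-- Above `e` every ramified prime is totally ramified over the level `e`. -/
def TotalAbove (e : ℕ) : Prop := ∀ m, e ≤ m → ∀ Q : HeightOneSpectrum (𝓞 (T.field m)),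
  Q.asIdeal.inertia (T.field m ≃ₐ[K] T.field m) = ⊥ ∨
    p ^ (m - e) ∣ Nat.card (Q.asIdeal.inertia (T.field m ≃ₐ[K] T.field m))

/-- The exponent of `p` in the class number of the level `n`. -/
abbrev vh (n : ℕ) : ℕ := padicValNat p (classNumber (T.field n))

/-- The number of classes of the level `n` killed by `p`. -/
abbrev rk (n : ℕ) : ℕ :=
  Nat.card (powMonoidHom p : ClassGroup (𝓞 (T.field n)) →* ClassGroup (𝓞 (T.field n))).ker

theorem exists_totalAbove : ∃ e, T.TotalAbove e := by
  obtain ⟨e, h1, -⟩ := T.exists_ramification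
  exact ⟨e, fun m hm Q => (h1 m hm Q).imp_right
    fun h => T.card_step hm ▸ Subgroup.card_dvd_of_le h⟩

theorem exists_setup {e : ℕ} (he : T.TotalAbove e) : ∃ S : T.Setup, S.e = e := by
  obtain ⟨S⟩ := T.nonempty_setup
  have htot : ∀ m (h : e ≤ m) (Q : HeightOneSpectrum (𝓞 (T.field m))),
      Q.asIdeal.inertia (T.field m ≃ₐ[K] T.field m) = ⊥ ∨
        T.step h ≤ Q.asIdeal.inertia (T.field m ≃ₐ[K] T.field m) := fun m h Q =>
    (he m h Q).imp_right fun hd => le_of_card_dvd (by rwa [T.card_step h])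
  refine ⟨{ S with e := e, total := htot, ram := fun m hm => ?_ }, rfl⟩
  obtain ⟨m₀, Q₀, hQ₀⟩ := T.exists_ramified
  obtain ⟨Q', hQ'⟩ := exists_under'_eq (T.mono (le_max_left m₀ m)) Q₀
  have hne : Q'.asIdeal.inertia (T.field (max m₀ m) ≃ₐ[K] T.field (max m₀ m)) ≠ ⊥ := fun hbot =>
    (T.step_le_inertia (le_max_left m₀ m) hQ₀ (Q' := Q')
      (by rw [← belowP_under' (T.mono (le_max_left m₀ m)) Q', hQ'])).1 (by rw [hbot]; exact bot_le)
  have hle := (htot _ (hm.le.trans (le_max_right m₀ m)) Q').resolve_left hne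
  refine ⟨under' (T.mono (le_max_right m₀ m)) Q', fun hbot => ?_⟩
  have h1 : T.step (hm.le.trans (le_max_right m₀ m)) ≤ T.step (le_max_right m₀ m) :=
    fun g hg => by
      have h2 := res_mem_inertia (T.mono (le_max_right m₀ m)) (hle hg)
      rw [hbot, Subgroup.mem_bot] at h2
      rwa [step, ← ker_res, MonoidHom.mem_ker]
  have h3 := Subgroup.card_dvd_of_le h1
  rw [T.card_step, T.card_step, Nat.pow_dvd_pow_iff_le_right hp.out.one_lt] at h3
  have := le_max_right m₀ m
  omega

/-- The setup above a higher level. -/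
theorem Setup.exists_base {T : ZpTower p K} (S : T.Setup) {n : ℕ} (hn : S.e ≤ n) :
    ∃ S' : T.Setup, S'.e = n :=
  ⟨{ S with
      e := n
      total := fun m h Q => (S.total m (hn.trans h) Q).imp_right
        fun h1 => (sub_le_sub (T.mono hn) (T.mono h)).trans h1
      ram := fun m hm => S.ram m (lt_of_le_of_lt hn hm) }, rfl⟩

/-- `v_p h` in terms of `X`. -/
theorem card_X_eq (n : ℕ) : Nat.card (T.X n) = p ^ T.vh n := by
  rw [T.card_X, Nat.factorization_def _ hp.out]

namespace Setup

variable {T} (S : T.Setup)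

/-- The norm from the level `e + 1`. -/
def nuOp (m : ℕ) : AddMonoid.End (Additive (T.X m)) :=
  ∑ i ∈ Finset.range (p ^ 1), T.conjEnd m (S.sig m) ^ (i * p ^ S.e)

/-- **The norm is nilpotent.** -/
theorem isNilpotent_nuOp (m : ℕ) : ∃ b, S.nuOp m ^ b = 0 := by
  set E := T.conjEnd m (S.sig m)
  set N := (classNumber (T.field m)).factorization p
  have hN : ∀ x : Additive (T.X m), p ^ N • x = 0 := fun x => by
    have h := pow_card_eq_one' (x := x.toMul)
    rw [T.card_X] at h
    exact congrArg Additive.ofMul h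
  obtain ⟨b, hb⟩ := exists_pow_eq_zero (E := E - 1) (r := N + m)
    (by rw [add_sub_cancel, ← map_pow, ← T.card_cl, pow_card_eq_one', map_one]) hN
  set R : Polynomial ℤ :=
    ∑ i ∈ Finset.range (p ^ 1), ∑ l ∈ Finset.range (i * p ^ S.e), Polynomial.X ^ l
  have hP : ((∑ i ∈ Finset.range (p ^ 1), Polynomial.X ^ (i * p ^ S.e)) : Polynomial ℤ) =
      (p : Polynomial ℤ) + (Polynomial.X - 1) * R := by
    rw [Finset.mul_sum]
    simp only [mul_geom_sum]
    rw [Finset.sum_sub_distrib, Finset.sum_const, Finset.card_range, pow_one, nsmul_one,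
      add_sub_cancel]
  have hE : S.nuOp m = Polynomial.aeval E ((p : Polynomial ℤ) + (Polynomial.X - 1) * R) := by
    rw [← hP, map_sum]
    exact Finset.sum_congr rfl fun i _ => by rw [map_pow, Polynomial.aeval_X]
  have h1 : IsNilpotent (Polynomial.aeval E (p : Polynomial ℤ)) := ⟨N, by
    rw [map_natCast]
    refine AddMonoidHom.ext fun x => ?_
    rw [← Nat.cast_pow]
    exact (AddMonoid.End.natCast_apply _ _).trans (hN x)⟩
  have h2 : IsNilpotent (Polynomial.aeval E ((Polynomial.X - 1) * R)) := by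
    rw [map_mul, map_sub, Polynomial.aeval_X, map_one]
    refine Commute.isNilpotent_mul_right ?_ ⟨b, hb⟩
    have h := (Commute.all (Polynomial.X - 1) R).map (Polynomial.aeval E)
    rwa [map_sub, Polynomial.aeval_X, map_one] at h
  obtain ⟨c, hc⟩ := ((Commute.all (p : Polynomial ℤ) ((Polynomial.X - 1) * R)).map
    (Polynomial.aeval E)).isNilpotent_add h1 h2
  exact ⟨c, by rw [hE, map_add, hc]⟩

variable {m : ℕ}

/-- The kernel at the level `e + 1` is the image of the kernel at the level `e`. -/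
theorem mem_range_nuOp (hm : S.e + 1 ≤ m) (x : T.X m) (hx : T.resX hm x = 1) :
    ∃ y : T.X m, T.resX (Nat.le_of_succ_le hm) y = 1 ∧
      S.nuOp m (Additive.ofMul y) = Additive.ofMul x := by
  have hm' := Nat.le_of_succ_le hm
  have h1 : x.1 ∈ sub (T.cl_mono hm) := by
    rw [← ker_res, MonoidHom.mem_ker]
    exact congrArg Subtype.val hx
  obtain ⟨y, hy, hy0, hyx⟩ := (S.mem_sub_cl_iff hm' (k := 1) hm x.2).1 h1
  rw [← ker_res, MonoidHom.mem_ker] at hy0
  rw [show y = ((⟨y, hy⟩ : T.X m) : T.cl m ≃ₐ[K] T.cl m) from rfl, S.normQ_eq hm'] at hyx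
  exact ⟨⟨y, hy⟩, Subtype.ext hy0, congrArg Additive.ofMul (Subtype.ext hyx)⟩

theorem resX_comp (hm : S.e + 1 ≤ m) (x : T.X m) :
    T.resX (Nat.le_succ S.e) (T.resX hm x) = T.resX (Nat.le_of_succ_le hm) x :=
  Subtype.ext (res_trans _ _ _)

/-- **Equal orders at `e`, `e + 1` stay equal.** -/
theorem card_X_stable (h : Nat.card (T.X (S.e + 1)) = Nat.card (T.X S.e)) (hm : S.e + 1 ≤ m) :
    Nat.card (T.X m) = Nat.card (T.X S.e) := by
  have hs1 := S.resX_surjective (m := S.e + 1) (Nat.le_succ S.e) (k := 0) (Nat.le_succ S.e)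
  have hbij : Function.Bijective (T.resX (Nat.le_succ S.e)) :=
    (Nat.bijective_iff_surjective_and_card _).2 ⟨hs1, h⟩
  have hm' := Nat.le_of_succ_le hm
  have hs := S.resX_surjective (m := m) hm' (k := 0) hm'
  have hker : ∀ x, T.resX hm' x = 1 → x = 1 := fun x hx => by
    obtain ⟨b, hb⟩ := S.isNilpotent_nuOp m
    have key : ∀ j : ℕ, ∃ y : T.X m, T.resX hm' y = 1 ∧
        (S.nuOp m ^ j) (Additive.ofMul y) = Additive.ofMul x := fun j => by
      induction j with
      | zero => exact ⟨x, hx, by rw [pow_zero]; rfl⟩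
      | succ j ih =>
        obtain ⟨y, hy, hyx⟩ := ih
        have h1 : T.resX hm y = 1 := hbij.1 (by rw [S.resX_comp hm, hy, map_one])
        obtain ⟨z, hz, hzy⟩ := S.mem_range_nuOp hm y h1
        exact ⟨z, hz, by
          rw [pow_succ]
          show (S.nuOp m ^ j) (S.nuOp m (Additive.ofMul z)) = _
          rw [hzy, hyx]⟩
    obtain ⟨y, -, hyx⟩ := key b
    rw [hb] at hyx
    exact congrArg Additive.toMul hyx.symm
  exact Nat.card_eq_of_bijective _ ⟨(injective_iff_map_eq_one _).2 hker, hs⟩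

/-- **Equal ranks at `e`, `e + 1` stay equal.** -/
theorem rank_X_stable
    (h : Nat.card (powMonoidHom p : T.X (S.e + 1) →* T.X (S.e + 1)).ker =
      Nat.card (powMonoidHom p : T.X S.e →* T.X S.e).ker) (hm : S.e + 1 ≤ m) :
    Nat.card (powMonoidHom p : T.X m →* T.X m).ker =
      Nat.card (powMonoidHom p : T.X S.e →* T.X S.e).ker := by
  have hidx : ∀ n, Nat.card (powMonoidHom p : T.X n →* T.X n).ker =
      (powMonoidHom p : T.X n →* T.X n).range.index := fun n => by
    refine Nat.eq_of_mul_eq_mul_right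
      (Nat.card_pos (α := (powMonoidHom p : T.X n →* T.X n).range)) ?_
    rw [Subgroup.index_mul_card, ← Subgroup.index_ker, Subgroup.card_mul_index]
  have hmap : ∀ {a b : ℕ} (f : T.X a →* T.X b), Function.Surjective f →
      (powMonoidHom p : T.X a →* T.X a).range.map f =
        (powMonoidHom p : T.X b →* T.X b).range := fun {a b} f hf => by
    ext z
    constructor
    · rintro ⟨_, ⟨w, rfl⟩, rfl⟩
      exact ⟨f w, (map_pow f w p).symm⟩
    · rintro ⟨w, rfl⟩
      obtain ⟨w', rfl⟩ := hf w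
      exact ⟨_, ⟨w', rfl⟩, map_pow f w' p⟩
  have hs1 := S.resX_surjective (m := S.e + 1) (Nat.le_succ S.e) (k := 0) (Nat.le_succ S.e)
  have hker1 : (T.resX (Nat.le_succ S.e)).ker ≤
      (powMonoidHom p : T.X (S.e + 1) →* T.X (S.e + 1)).range := by
    set P := (powMonoidHom p : T.X (S.e + 1) →* T.X (S.e + 1)).range
    have h1 : (P.map (T.resX (Nat.le_succ S.e))).index = P.index := by
      rw [hmap _ hs1]
      exact (hidx _).symm.trans (h.symm.trans (hidx _))
    rw [Subgroup.index_map, MonoidHom.range_eq_top.2 hs1, Subgroup.index_top, mul_one] at h1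
    have h2 := Subgroup.relIndex_mul_index (le_sup_left : P ≤ P ⊔ (T.resX (Nat.le_succ S.e)).ker)
    rw [h1] at h2
    have h3 : P.relIndex (P ⊔ (T.resX (Nat.le_succ S.e)).ker) = 1 :=
      Nat.eq_of_mul_eq_mul_right (Nat.pos_of_ne_zero Subgroup.index_ne_zero_of_finite)
        (h2.trans (one_mul _).symm)
    exact le_sup_right.trans (Subgroup.relIndex_eq_one.1 h3)
  have hm' := Nat.le_of_succ_le hm
  have hs := S.resX_surjective (m := m) hm' (k := 0) hm'
  have hsm := S.resX_surjective (m := m) hm' (k := 1) hm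
  set Pm := (powMonoidHom p : T.X m →* T.X m).range
  have hker : (T.resX hm').ker ≤ Pm := fun x hx => by
    obtain ⟨b, hb⟩ := S.isNilpotent_nuOp m
    have key : ∀ j : ℕ, ∃ y : T.X m, T.resX hm' y = 1 ∧ ∃ w,
        Additive.ofMul x = p • w + (S.nuOp m ^ j) (Additive.ofMul y) := fun j => by
      induction j with
      | zero => exact ⟨x, hx, 0, by rw [pow_zero, nsmul_zero, zero_add]; rfl⟩
      | succ j ih =>
        obtain ⟨y, hy, w, hw⟩ := ih
        obtain ⟨a, ha⟩ := hker1 (show T.resX hm y ∈ (T.resX (Nat.le_succ S.e)).ker from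
          MonoidHom.mem_ker.2 ((S.resX_comp hm y).trans hy))
        obtain ⟨a', rfl⟩ := hsm a
        have h1 : T.resX hm (y * (a' ^ p)⁻¹) = 1 := by
          rw [map_mul, map_inv, map_pow, ← ha, powMonoidHom_apply, mul_inv_cancel]
        obtain ⟨z, hz, hzy⟩ := S.mem_range_nuOp hm _ h1
        refine ⟨z, hz, w + (S.nuOp m ^ j) (Additive.ofMul a'), ?_⟩
        rw [pow_succ]
        show _ = _ + (S.nuOp m ^ j) (S.nuOp m (Additive.ofMul z))
        rw [hzy, hw, nsmul_add,
          ← map_nsmul, add_assoc, ← map_add, ofMul_mul, ofMul_inv, ofMul_pow]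
        congr 2
        abel
    obtain ⟨y, -, w, hw⟩ := key b
    rw [hb] at hw
    change Additive.ofMul x = p • w + 0 at hw
    rw [add_zero] at hw
    exact ⟨w.toMul, (congrArg Additive.toMul hw).symm⟩
  rw [hidx, hidx, ← hmap _ hs, Subgroup.index_map_eq _ hs hker]

end Setup

variable {e : ℕ} (he : T.TotalAbove e)

include he

theorem vh_mono {k m : ℕ} (hk : e ≤ k) (hkm : k ≤ m) : T.vh k ≤ T.vh m := by
  obtain ⟨S, hS⟩ := T.exists_setup he
  obtain ⟨j, rfl⟩ := Nat.exists_eq_add_of_le hk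
  subst hS
  have h := Nat.card_le_card_of_surjective _
    (S.resX_surjective (m := m) (hk.trans hkm) (k := j) hkm)
  rwa [T.card_X_eq, T.card_X_eq, Nat.pow_le_pow_iff_right hp.out.one_lt] at h

/-- **Fukuda's theorem, orders.** -/
theorem stable_of_succ_eq {n : ℕ} (hn : e ≤ n) (h : T.vh (n + 1) = T.vh n) {m : ℕ} (hm : n ≤ m) :
    T.vh m = T.vh n := by
  rcases hm.eq_or_lt with rfl | hlt
  · rfl
  obtain ⟨S, rfl⟩ := T.exists_setup he
  obtain ⟨S', rfl⟩ := S.exists_base hn
  have h1 := S'.card_X_stable (by rw [T.card_X_eq, T.card_X_eq, h]) hlt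
  rw [T.card_X_eq, T.card_X_eq] at h1
  exact Nat.pow_right_injective hp.out.two_le h1

/-- **Fukuda's theorem, ranks.** -/
theorem rank_stable_of_succ_eq {n : ℕ} (hn : e ≤ n) (h : T.rk (n + 1) = T.rk n) {m : ℕ}
    (hm : n ≤ m) : T.rk m = T.rk n := by
  rcases hm.eq_or_lt with rfl | hlt
  · rfl
  obtain ⟨S, rfl⟩ := T.exists_setup he
  obtain ⟨S', rfl⟩ := S.exists_base hn
  rw [rk, rk, T.card_torsion_classGroup, T.card_torsion_classGroup] at h ⊢
  exact S'.rank_X_stable h hlt

/-- **Strict growth or stability.** -/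
theorem vh_add_le (k : ℕ) (h : ∀ n, e ≤ n → n < e + k → T.vh (n + 1) ≠ T.vh n) :
    T.vh e + k ≤ T.vh (e + k) := by
  induction k with
  | zero => rfl
  | succ k ih =>
    have h1 := ih fun n hn hlt => h n hn (by omega)
    have h2 : T.vh (e + k) ≤ T.vh (e + k + 1) :=
      T.vh_mono he (Nat.le_add_right e k) (Nat.le_succ _)
    have h3 := h (e + k) (Nat.le_add_right e k) (by omega)
    show T.vh e + (k + 1) ≤ T.vh (e + k + 1)
    omega

omit he in
/-- Constant exponents force `μ = λ = 0`. -/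
theorem invariants_eq_zero_of_const {mu lam n₀ c n₁ : ℕ} {nu : ℤ}
    (h : ∀ n, n₀ ≤ n → (T.vh n : ℤ) = mu * p ^ n + lam * n + nu)
    (hc : ∀ n, n₁ ≤ n → T.vh n = c) : mu = 0 ∧ lam = 0 := by
  have key : ∀ n, max n₀ n₁ ≤ n → (mu : ℤ) * p ^ n + lam * n + nu = c := fun n hn => by
    rw [← h n ((le_max_left _ _).trans hn), hc n ((le_max_right _ _).trans hn)]
  have hmu : (mu : ℤ) = 0 := eq_zero_of_exp_eq (p := p) (b := -(lam : ℤ)) (c := c - nu)
    (k₀ := max n₀ n₁) fun k hk => by linear_combination key k hk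
  have h1 := key _ le_rfl
  have h2 := key (max n₀ n₁ + 1) (Nat.le_succ _)
  rw [hmu] at h1 h2
  push_cast at h1 h2
  refine ⟨by exact_mod_cast hmu, ?_⟩
  have : (lam : ℤ) = 0 := by linear_combination h2 - h1
  exact_mod_cast this

end ZpTower

end FA.IwasawaGrowth
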