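import Fermat.Agent.Stabilisation.Fukuda
import Fermat.Agent.AmbiguousClass.Applications

/-!
# Genus growth in a `ℤ_p`-extension

If `t` primes of `K` ramify in the extension and `r` is the unit rank, then Chevalley's formula
gives `v_p h(F_n) ≥ (t - 1 - r) n - O(1)` (`ZpTower.genus_growth`), so `μ > 0` or `λ ≥ t - 1 - r`
(`ZpTower.genus_invariants`).
-/

set_option autoImplicit false
set_option linter.unusedSectionVars false
set_option linter.style.haveILetI false

noncomputable section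

open NumberField IsDedekindDomain
open FA.ArtinRec (belowP exists_belowP intUnits)
open scoped Classical

namespace FA.IwasawaGrowth

/-- The index of the `q`-th powers in the units. -/
theorem index_powers_le (K : Type) [Field K] [NumberField K] (q : ℕ) (hq : q ≠ 0) :
    (powMonoidHom q : (𝓞 K)ˣ →* (𝓞 K)ˣ).range.index ≠ 0 ∧
      (powMonoidHom q : (𝓞 K)ˣ →* (𝓞 K)ˣ).range.index ≤
        Units.torsionOrder K * q ^ Units.rank K := by
  set P := (powMonoidHom q : (𝓞 K)ˣ →* (𝓞 K)ˣ).range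
  haveI : NeZero q := ⟨hq⟩
  let f : Units.torsion K × (Fin (Units.rank K) → ZMod q) → (𝓞 K)ˣ ⧸ P := fun x =>
    QuotientGroup.mk ((x.1 : (𝓞 K)ˣ) * ∏ i, Units.fundSystem K i ^ ((x.2 i).val : ℤ))
  have hf : Function.Surjective f := fun y => by
    obtain ⟨u, rfl⟩ := QuotientGroup.mk_surjective y
    obtain ⟨⟨ζ, a⟩, hu, -⟩ := Units.exist_unique_eq_mul_prod K u
    refine ⟨(ζ, fun i => ((a i : ℤ) : ZMod q)), QuotientGroup.eq.2 ?_⟩
    refine ⟨∏ i, Units.fundSystem K i ^ (a i / q), ?_⟩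
    rw [hu, powMonoidHom_apply, ← Finset.prod_pow, mul_inv, mul_assoc, ← mul_assoc _ (ζ : (𝓞 K)ˣ),
      mul_comm _ (ζ : (𝓞 K)ˣ), mul_assoc (ζ : (𝓞 K)ˣ), inv_mul_cancel_left,
      ← Finset.prod_inv_distrib, ← Finset.prod_mul_distrib]
    refine Finset.prod_congr rfl fun i _ => ?_
    rw [← zpow_natCast, ← zpow_mul, ← zpow_neg, ← zpow_add, ZMod.val_intCast, Int.emod_def]
    congr 1
    ring
  haveI : Finite ((𝓞 K)ˣ ⧸ P) := Finite.of_surjective f hf
  refine ⟨Subgroup.index_ne_zero_of_finite, ?_⟩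
  rw [Subgroup.index_eq_card]
  refine (Nat.card_le_card_of_surjective f hf).trans (le_of_eq ?_)
  rw [Nat.card_prod, Nat.card_fun, Nat.card_zmod, Nat.card_fin, Units.torsionOrder]

variable {K : Type} [Field K] [NumberField K] {p : ℕ} [hp : Fact p.Prime]

attribute [local instance] numberField_sub ZpTower.finite_level ZpTower.isGalois ZpTower.isCyclic

namespace ZpTower

variable (T : ZpTower p K) {e : ℕ}

/-- The prime ramifies somewhere in the tower. -/
def IsRamified (v : HeightOneSpectrum (𝓞 K)) : Prop :=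
  ∃ (m : ℕ) (Q : HeightOneSpectrum (𝓞 (T.field m))),
    belowP K Q = v ∧ Q.asIdeal.inertia (T.field m ≃ₐ[K] T.field m) ≠ ⊥

theorem pow_dvd_eBase (he : T.TotalAbove e) {v : HeightOneSpectrum (𝓞 K)} (hv : T.IsRamified v)
    (n : ℕ) : p ^ (n - e) ∣ FA.AmbClass.eBase (T.field n) v := by
  rcases le_or_gt n e with hne | hlt
  · rw [Nat.sub_eq_zero_of_le hne, pow_zero]
    exact one_dvd _
  obtain ⟨m₀, Q₀, rfl, hQ₀⟩ := hv
  obtain ⟨Q', hQ'⟩ := exists_under'_eq (T.mono (le_max_left m₀ n)) Q₀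
  have hb : belowP K Q' = belowP K Q₀ := by
    rw [← belowP_under' (T.mono (le_max_left m₀ n)) Q', hQ']
  have hne : Q'.asIdeal.inertia (T.field (max m₀ n) ≃ₐ[K] T.field (max m₀ n)) ≠ ⊥ := fun hbot =>
    (T.step_le_inertia (le_max_left m₀ n) hQ₀ hb).1 (by rw [hbot]; exact bot_le)
  have hd := (he _ (hlt.le.trans (le_max_right m₀ n)) Q').resolve_left hne
  set Q := under' (T.mono (le_max_right m₀ n)) Q' with hQdef
  have hQb : belowP K Q = belowP K Q₀ := by rw [hQdef, belowP_under', hb]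
  have hQne : Q.asIdeal.inertia (T.field n ≃ₐ[K] T.field n) ≠ ⊥ := fun hbot => by
    have h1 : Q'.asIdeal.inertia (T.field (max m₀ n) ≃ₐ[K] T.field (max m₀ n)) ≤
        T.step (le_max_right m₀ n) := fun g hg => by
      have h2 := res_mem_inertia (T.mono (le_max_right m₀ n)) hg
      rw [← hQdef, hbot, Subgroup.mem_bot] at h2
      rwa [step, ← ker_res, MonoidHom.mem_ker]
    have h3 := hd.trans (Subgroup.card_dvd_of_le h1)
    rw [T.card_step, Nat.pow_dvd_pow_iff_le_right hp.out.one_lt] at h3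
    have := le_max_right m₀ n
    omega
  have hd' := (he n hlt.le Q).resolve_left hQne
  haveI : Q.asIdeal.LiesOver (belowP K Q).asIdeal := ⟨rfl⟩
  haveI := (belowP K Q).isMaximal
  haveI : Finite (𝓞 K ⧸ (belowP K Q).asIdeal) :=
    Ideal.finiteQuotientOfFreeOfNeBot _ (belowP K Q).ne_bot
  rwa [Ideal.card_inertia_eq_ramificationIdxIn (G := T.field n ≃ₐ[K] T.field n)
    (belowP K Q).asIdeal Q.asIdeal, hQb] at hd'

/-- **Genus growth.** -/
theorem genus_growth (he : T.TotalAbove e) {R : Finset (HeightOneSpectrum (𝓞 K))}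
    (hR : ∀ v ∈ R, T.IsRamified v) (n : ℕ) :
    ((R.card : ℤ) - 1 - Units.rank K) * n - (R.card * e + Units.torsionOrder K) ≤ T.vh n := by
  obtain ⟨σ, hσ⟩ := FA.AmbClass.exists_generator (K := K) (L := T.field n)
  have hF := FA.AmbClass.card_fixed hσ
  rw [FA.AmbClass.prod_infIdx, T.finrank_eq] at hF
  set c := Nat.card {c : ClassGroup (𝓞 (T.field n)) //
    ∀ g : T.field n ≃ₐ[K] T.field n, FA.AmbClass.galCl g c = c} with hc
  set i := ((Units.map (Algebra.norm K : T.field n →* K)).range.comap (intUnits (F := K))).index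
    with hi
  -- the units
  obtain ⟨hP0, hP⟩ := index_powers_le K (p ^ n) (pow_ne_zero _ hp.out.ne_zero)
  have hidvd : i ∣ (powMonoidHom (p ^ n) : (𝓞 K)ˣ →* (𝓞 K)ˣ).range.index := by
    refine Subgroup.index_dvd_of_le ?_
    rintro _ ⟨u, rfl⟩
    refine ⟨Units.map (algebraMap K (T.field n)) (intUnits u), Units.ext ?_⟩
    simp [Algebra.norm_algebraMap, T.finrank_eq, FA.ArtinRec.intUnits]
  have hi0 : i ≠ 0 := fun h0 => hP0 (Nat.eq_zero_of_zero_dvd (h0 ▸ hidvd))
  have hil : padicValNat p i ≤ n * Units.rank K + Units.torsionOrder K := by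
    refine (Nat.pow_le_pow_iff_right hp.out.one_lt).1 ((Nat.le_of_dvd (Nat.pos_of_ne_zero hi0)
      pow_padicValNat_dvd).trans ((Nat.le_of_dvd (Nat.pos_of_ne_zero hP0) hidvd).trans
        (hP.trans ?_)))
    rw [← pow_mul, mul_comm (Units.torsionOrder K), pow_add]
    exact Nat.mul_le_mul_left _ (Nat.lt_pow_self hp.out.one_lt).le
  -- the ramified primes
  set R' := (FA.AmbClass.finite_eBase_ne_one K (T.field n)).toFinset with hR'
  have hprod : p ^ (R.card * (n - e)) ∣
      ∏ᶠ v : HeightOneSpectrum (𝓞 K), FA.AmbClass.eBase (T.field n) v := by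
    rw [finprod_eq_prod_of_mulSupport_subset _ (s := R ∪ R') (fun v hv => by
      rw [Finset.coe_union]
      exact Or.inr (Finset.mem_coe.2 ((Set.Finite.mem_toFinset _).2 hv)))]
    refine dvd_trans ?_ (Finset.prod_dvd_prod_of_subset R (R ∪ R') _ Finset.subset_union_left)
    rw [mul_comm, pow_mul, ← Finset.prod_const]
    exact Finset.prod_dvd_prod_of_dvd _ _ fun v hv => T.pow_dvd_eBase he (hR v hv) n
  have hfix : c ∣ classNumber (T.field n) := by
    have h := Subgroup.card_subgroup_dvd_card (FA.AmbClass.fixedClasses K (T.field n))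
    rwa [Nat.card_eq_fintype_card (α := ClassGroup (𝓞 (T.field n)))] at h
  have hdvd : p ^ (R.card * (n - e)) ∣ classNumber (T.field n) * (p ^ n * i) := by
    rw [← mul_assoc]
    refine (hprod.trans (dvd_trans ?_ (dvd_of_eq hF.symm))).trans
      (Nat.mul_dvd_mul_right (Nat.mul_dvd_mul_right hfix _) _)
    exact (dvd_mul_left _ _).mul_right _
  have hne : classNumber (T.field n) * (p ^ n * i) ≠ 0 :=
    Nat.mul_ne_zero (classNumber_ne_zero _) (Nat.mul_ne_zero (pow_ne_zero _ hp.out.ne_zero) hi0)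
  have h1 := (padicValNat_dvd_iff_le hne).1 hdvd
  rw [padicValNat.mul (classNumber_ne_zero _) (Nat.mul_ne_zero (pow_ne_zero _ hp.out.ne_zero) hi0),
    padicValNat.mul (pow_ne_zero _ hp.out.ne_zero) hi0, padicValNat.prime_pow] at h1
  have h2 : R.card * (n - e) ≤ T.vh n + n + (n * Units.rank K + Units.torsionOrder K) := by
    show R.card * (n - e) ≤ padicValNat p (classNumber (T.field n)) + n + _
    omega
  have h3 : (R.card : ℤ) * ((n : ℤ) - e) ≤ ((R.card * (n - e) : ℕ) : ℤ) := by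
    push_cast
    exact mul_le_mul_of_nonneg_left (by omega) (Int.natCast_nonneg _)
  have h4 : ((R.card * (n - e) : ℕ) : ℤ) ≤
      T.vh n + n + (n * Units.rank K + Units.torsionOrder K) := by exact_mod_cast h2
  linarith

/-- **`μ > 0` or `λ ≥ t - 1 - r`.** -/
theorem genus_invariants {R : Finset (HeightOneSpectrum (𝓞 K))} (hR : ∀ v ∈ R, T.IsRamified v)
    {mu lam n₀ : ℕ} {nu : ℤ}
    (h : ∀ n, n₀ ≤ n → (T.vh n : ℤ) = mu * p ^ n + lam * n + nu) :
    0 < mu ∨ (R.card : ℤ) - 1 - Units.rank K ≤ lam := by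
  refine mu.eq_zero_or_pos.symm.imp_right fun hmu => ?_
  obtain ⟨e, he⟩ := T.exists_totalAbove
  by_contra hlt
  push Not at hlt
  set B : ℤ := nu + (R.card * e + Units.torsionOrder K)
  set N := n₀ + B.natAbs + 1
  have h1 := h N (by omega)
  have h2 := T.genus_growth he hR N
  rw [hmu, Nat.cast_zero, zero_mul, zero_add] at h1
  have h3 : ((lam : ℤ) + 1) * N ≤ ((R.card : ℤ) - 1 - Units.rank K) * N :=
    mul_le_mul_of_nonneg_right (by omega) (Int.natCast_nonneg _)
  have h4 : B < (N : ℤ) := by omega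
  linarith

end ZpTower

end FA.IwasawaGrowth
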